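import Fermat.Agent.F4.Cf.RecipDefs
import Fermat.Agent.F4.HyperLES

/-!
# S56 / W2 / EC / Rich / LocH0 : (R3) the local `H⁰` of the complex `K_q` (helper48)

For a local pack `P : LocPack p S φ q` (`φ` a root map), `K_q = P.loc.K = [I[p] → (I/L_q)[p]]`:

* `ecR3_torsion_surj` : every `p`-torsion element of `L_q` is `ι (φ m)` for some `m ∈ μ_p`;
* `ecR3_ker_d`        : `ker (K_q.d) = ε (μ_p)`;
* `ecR3_hh0_bijective`: `HH⁰(Hom(N, μ_p)) → HH⁰(Hom(N, K_q))` (composition with `ε`) is bijective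
  for every module `N` over the local group.
-/

set_option autoImplicit false
set_option linter.unusedSectionVars false

open CategoryTheory groupCohomology ExtCitation

namespace Fermat.Agent.F4

open Fermat.Agent.F4Cf

variable {p : ℕ} [Fact p.Prime] {S : Finset Nat.Primes}

section Torsion

variable (S) (q : Nat.Primes) {φ : Fp1 p →+ EsRep S}

/-- The root map into `L_q`. -/
noncomputable def ecR3Root (φ : Fp1 p →+ EsRep S) : Fp1 p →+ LqS S q :=
  (locUnit S q).comp ((EsIncl S).comp φ)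

lemma ecR3Root_apply (m : Fp1 p) : ecR3Root S q φ m = locUnit S q (EsIncl S (φ m)) := rfl

lemma ecR3Root_injective (hφ : IsRootMap φ) : Function.Injective (ecR3Root S q φ) :=
  (locUnit_injective S q).comp ((subIncl_injective _ _ _).comp hφ.inj)

lemma ecR3_nsmul_Fp1 (m : Fp1 p) : p • m = 0 := by
  show p • (show ZMod p from m) = 0
  rw [nsmul_eq_mul, ZMod.natCast_self, zero_mul]

lemma ecR3Root_torsion (m : Fp1 p) : p • ecR3Root S q φ m = 0 := by
  rw [← map_nsmul, ecR3_nsmul_Fp1, map_zero]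

/-- The unit of `PadicAlgCl q` underlying a `p`-torsion element of `L_q` is a `p`-th root of
unity. -/
lemma ecR3_val_mem (c : LqS S q) (hc : p • c = 0) :
    smUnits.val c ∈ rootsOfUnity p (@PadicAlgCl (q : ℕ) ⟨q.2⟩) := by
  rw [mem_rootsOfUnity, ← smUnits.val_nsmul, hc]
  rfl

/-- **Every `p`-torsion element of `L_q` comes from `μ_p`.** -/
theorem ecR3_torsion_surj (hφ : IsRootMap φ) (c : LqS S q) (hc : p • c = 0) :
    ∃ m : Fp1 p, ecR3Root S q φ m = c := by
  classical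
  let _ : Fact (q : ℕ).Prime := ⟨q.2⟩
  have hp : p.Prime := Fact.out
  have : NeZero p := ⟨hp.ne_zero⟩
  -- the map into the roots of unity
  let F : Fp1 p → ↥(rootsOfUnity p (PadicAlgCl (q : ℕ))) := fun m =>
    ⟨smUnits.val (ecR3Root S q φ m), ecR3_val_mem S q _ (ecR3Root_torsion S q m)⟩
  have hF : Function.Injective F := by
    intro m m' h
    have h2 := Subtype.mk.inj h
    exact ecR3Root_injective S q hφ (smUnits.val_injective h2)
  have hfin : Finite ↥(rootsOfUnity p (PadicAlgCl (q : ℕ))) := inferInstance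
  have hcard : Nat.card (Fp1 p) = p := by
    show Nat.card (ZMod p) = p
    simp
  have hle : Nat.card ↥(rootsOfUnity p (PadicAlgCl (q : ℕ))) ≤ Nat.card (Fp1 p) := by
    rw [hcard]
    exact card_rootsOfUnity _ p
  have hfinF : Finite (Fp1 p) := by
    show Finite (ZMod p)
    infer_instance
  have hsurj : Function.Surjective F :=
    (Function.Injective.bijective_of_nat_card_le hF hle).2
  obtain ⟨m, hm⟩ := hsurj ⟨smUnits.val c, ecR3_val_mem S q c hc⟩
  have h2 := Subtype.mk.inj hm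
  exact ⟨m, smUnits.val_injective h2⟩

end Torsion

section Ker

variable {q : Nat.Primes} {φ : Fp1 p →+ EsRep S}

lemma ecR3_d_eps (P : LocPack p S φ q) (m : Fp1 p) : P.loc.K.d (P.loc.ε.f0 m) = 0 := by
  have h := P.loc.ε.commd (show (locMu p q).K0 from m)
  have h0 : P.loc.ε.f1 ((locMu p q).d (show (locMu p q).K0 from m)) = 0 := map_zero _
  rw [h] at h0
  exact h0

/-- **(R3)** `ker (K_q.d) = ε (μ_p)`. -/
theorem ecR3_ker_d (hφ : IsRootMap φ) (P : LocPack p S φ q) (t : P.loc.K.K0)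
    (ht : P.loc.K.d t = 0) : ∃ m : Fp1 p, P.loc.ε.f0 m = t := by
  have h1 : P.dat.π (P.dat.i0 t) = 0 := by
    rw [P.dat.comm, ht, map_zero]
  obtain ⟨c, hc⟩ := (P.dat.exact _).1 h1
  have hpt : p • t = 0 := by
    rw [← Nat.cast_smul_eq_nsmul (ZMod p), ZMod.natCast_self, zero_smul]
  have hc0 : p • c = 0 := by
    apply P.dat.ι_inj
    rw [map_nsmul, hc, ← map_nsmul, hpt, map_zero, map_zero]
  obtain ⟨m, hm⟩ := ecR3_torsion_surj S q hφ c hc0
  refine ⟨m, P.dat.i0_inj ?_⟩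
  rw [P.compat, ← hc, ← hm]
  rfl

end Ker

end Fermat.Agent.F4

namespace Fermat.Agent.F4

open Fermat.Agent.F4Cf

variable {p : ℕ} [Fact p.Prime] {S : Finset Nat.Primes}

section HH0

variable {q : Nat.Primes} {φ : Fp1 p →+ EsRep S}
  (N : Rep.{0} (ZMod p) (primeLocalGaloisGroup q))

lemma ecR3_hh0_injective (P : LocPack p S φ q) :
    Function.Injective (homCxPost N P.loc.ε).hh0 := by
  intro f g h
  apply Subtype.ext
  have h1 : (homCxPost N P.loc.ε).f0 f.1 = (homCxPost N P.loc.ε).f0 g.1 :=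
    congrArg Subtype.val h
  refine LinearMap.ext fun n => P.loc.ε_inj ?_
  exact congrArg (fun u : N →ₗ[ZMod p] P.loc.K.K0 => u n) h1

/-- **(R3)** on `HH⁰`: `Hom_{G_q}(N, μ_p) ≃ HH⁰(Hom(N, K_q))`. -/
theorem ecR3_hh0_bijective (hφ : IsRootMap φ) (P : LocPack p S φ q) :
    Function.Bijective (homCxPost N P.loc.ε).hh0 := by
  refine ⟨ecR3_hh0_injective N P, fun f => ?_⟩
  have hf : ∀ n : N, P.loc.K.d ((f.1 : N →ₗ[ZMod p] P.loc.K.K0) n) = 0 := by
    intro n
    have h2 : (homCx N P.loc.K).d f.1 = 0 := by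
      have h : D0 (homCx N P.loc.K) f.1 = 0 := f.2
      rw [D0_apply, Prod.mk_eq_zero] at h
      exact h.2
    exact congrArg (fun u : N →ₗ[ZMod p] P.loc.K.K1 => u n) h2
  have hfix : ∀ g : primeLocalGaloisGroup q, (homCx N P.loc.K).K0.ρ g f.1 = f.1 := by
    intro g
    have h : D0 (homCx N P.loc.K) f.1 = 0 := f.2
    rw [D0_apply, Prod.mk_eq_zero] at h
    have h3 := congrFun h.1 g
    rw [δ0_apply, Pi.zero_apply, sub_eq_zero] at h3
    exact h3
  -- the inverse of `ε` on its range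
  let e := LinearEquiv.ofInjective P.loc.ε.f0 P.loc.ε_inj
  have hmem : ∀ n : N, (f.1 : N →ₗ[ZMod p] P.loc.K.K0) n ∈ LinearMap.range P.loc.ε.f0 := by
    intro n
    obtain ⟨m, hm⟩ := ecR3_ker_d hφ P _ (hf n)
    exact ⟨m, hm⟩
  let g0 : N →ₗ[ZMod p] (locMu p q).K0 :=
    e.symm.toLinearMap ∘ₗ (LinearMap.codRestrict (LinearMap.range P.loc.ε.f0)
      (f.1 : N →ₗ[ZMod p] P.loc.K.K0) hmem)
  have hg0 : ∀ n : N, P.loc.ε.f0 (g0 n) = (f.1 : N →ₗ[ZMod p] P.loc.K.K0) n := by
    intro n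
    have := e.apply_symm_apply ⟨_, hmem n⟩
    exact congrArg Subtype.val this
  have hg0mem : (show (homCx N (locMu p q)).K0 from g0) ∈ HH0 (homCx N (locMu p q)) := by
    show D0 (homCx N (locMu p q)) _ = 0
    rw [D0_apply, Prod.mk_eq_zero]
    refine ⟨?_, ?_⟩
    · funext g
      rw [δ0_apply, Pi.zero_apply, sub_eq_zero]
      refine LinearMap.ext fun n => P.loc.ε_inj ?_
      rw [homRep_ρ_apply, P.loc.ε.comm0]
      show P.loc.K.K0.ρ g (P.loc.ε.f0 (g0 (N.ρ g⁻¹ n))) = P.loc.ε.f0 (g0 n)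
      rw [hg0, hg0]
      have := congrArg (fun u : N →ₗ[ZMod p] P.loc.K.K0 => u n) (hfix g)
      exact this
    · exact LinearMap.ext fun n => rfl
  refine ⟨⟨_, hg0mem⟩, Subtype.ext (LinearMap.ext fun n => ?_)⟩
  exact hg0 n

end HH0

end Fermat.Agent.F4
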