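/-
S56, wall W2-EC, rich datum (helper1), part R1: Shapiro's lemma in degree 1, INJECTIVITY, on smooth
cochains: a smooth total 1-cocycle of `coInd K` whose evaluation (restriction to `D`, then
`φ ↦ φ 1`) is a coboundary of `K` is a coboundary of `coInd K`.  Then with coefficients
`Hom(N, -)`, for finite products, and for `KJ = coindKJ loc`.
-/
import Fermat.Agent.F4.Coind.Datum

set_option autoImplicit false

open CategoryTheory groupCohomology ExtCitation

namespace Fermat.Agent.F4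

section Coind

variable {k D G : Type} [CommRing k] [Group D] [Group G] (r : D →* G) (𝓤 : Levels G) (K : Cx k D)

/-- **Shapiro's lemma in degree 1** (injectivity, on cochains). -/
theorem ecR_shapiro1inj_coInd (Z : T1 (K.coInd r 𝓤)) (hZ : Z ∈ ZZ1 𝓤 (K.coInd r 𝓤))
    (h : (evCx r 𝓤 K).onT1 (resT1 r (K.coInd r 𝓤) Z) ∈ BB1 K) : Z ∈ BB1 (K.coInd r 𝓤) := by
  obtain ⟨α, β⟩ := Z
  obtain ⟨hz1, hz2, hz3⟩ := (mem_ZZ1_iff 𝓤 _ (α, β)).1 hZ
  obtain ⟨c, hc⟩ := (mem_BB1_iff K _).1 h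
  simp only at hz1 hz2 hz3
  -- function forms
  set αf : G → G → K.K0 := fun g x => K.coIndFun0 r 𝓤 (α g) x with hαf
  set βf : G → K.K1 := fun x => K.coIndFun1 r 𝓤 β x with hβf
  -- the cocycle relations, evaluated
  have hcoc : ∀ g h x, αf h (x * g) - αf (g * h) x + αf g x = 0 := by
    intro g h x
    have := congrFun hz1 (g, h)
    simp only [δ1_apply, Pi.zero_apply] at this
    exact congrFun (congrArg Subtype.val this) x
  have hdα : ∀ g x, K.d (αf g x) = βf (x * g) - βf x := by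
    intro g x
    have := congrFun hz2 g
    simp only [Cx.dco_apply, δ0_apply] at this
    exact congrFun (congrArg Subtype.val this) x
  -- the hypothesis, evaluated
  have hc0 : ∀ d : D, αf (r d) 1 = K.K0.ρ d c - c := by
    intro d
    have := congrFun (congrArg Prod.fst hc) d
    simp only [D0_apply, δ0_apply] at this
    exact this.symm
  have hc1 : βf 1 = K.d c := by
    have := congrArg Prod.snd hc
    simp only [D0_apply] at this
    exact this.symm
  -- equivariance of the values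
  have hαeq : ∀ g (d : D) x, αf g (r d * x) = K.K0.ρ d (αf g x) :=
    fun g d x => K.coIndFun0_equivariant r 𝓤 (α g) d x
  -- the primitive
  have hφ : (fun x : G => αf x 1 + c) ∈ coIndSub r 𝓤 K.K0 := by
    refine ⟨fun d x => ?_, ?_⟩
    · show αf (r d * x) 1 + c = K.K0.ρ d (αf x 1 + c)
      have h1 := hcoc (r d) x 1
      rw [one_mul] at h1
      have h2 := hαeq x d 1
      rw [mul_one] at h2
      have h3 : αf (r d * x) 1 = αf x (r d) + αf (r d) 1 := by
        have := sub_eq_zero.1 (show αf x (r d) + αf (r d) 1 - αf (r d * x) 1 = 0 by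
          rw [← h1]; abel)
        exact this.symm
      rw [h3, h2, hc0 d, map_add]
      abel
    · obtain ⟨U, hU, hUα⟩ := hz3
      refine ⟨U, hU, fun x s hs => ?_⟩
      show αf (x * s) 1 + c = αf x 1 + c
      have := hUα x s hs
      show K.coIndFun0 r 𝓤 (α (x * s)) 1 + c = K.coIndFun0 r 𝓤 (α x) 1 + c
      rw [this]
  refine (mem_BB1_iff _ _).2 ⟨(⟨_, hφ⟩ : ↥(coIndSub r 𝓤 K.K0)), ?_⟩
  refine Prod.ext (funext fun g => Subtype.ext (funext fun x => ?_)) (Subtype.ext (funext fun x => ?_))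
  · show (αf (x * g) 1 + c) - (αf x 1 + c) = αf g x
    have h1 := hcoc x g 1
    rw [one_mul] at h1
    have : αf g x = αf (x * g) 1 - αf x 1 := by
      have := sub_eq_zero.1 (show αf g x - (αf (x * g) 1 - αf x 1) = 0 by rw [← h1]; abel)
      exact this
    rw [this]
    abel
  · show K.d (αf x 1 + c) = βf x
    have h1 := hdα x 1
    rw [one_mul] at h1
    rw [map_add, h1, hc1]
    abel

end Coind

/-! ### With coefficients -/

section Hom

variable {k D G : Type} [Field k] [Group D] [Group G] (r : D →* G) (𝓤 : Levels G) (K : Cx k D)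
  (N : Rep.{0} k G)

/-- **Shapiro in degree 1 with coefficients** (injectivity, on cochains). -/
theorem ecR_shapiro1inj_hom (hN : IsSmooth 𝓤 N) [hfin : Module.Finite k N]
    (z : T1 (homCx N (K.coInd r 𝓤))) (hz : z ∈ ZZ1 𝓤 (homCx N (K.coInd r 𝓤)))
    (h : (homCxPost (Rep.res r N) (evCx r 𝓤 K)).onT1 (resHomT1 r N (K.coInd r 𝓤) z)
      ∈ BB1 (homCx (Rep.res r N) K)) :
    z ∈ BB1 (homCx N (K.coInd r 𝓤)) := by
  have hZ := CxHom.onT1_mem_ZZ1 (swapFromCx r 𝓤 hN K) 𝓤 hz
  have hev : (evCx r 𝓤 (homCx (Rep.res r N) K)).onT1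
      (resT1 r ((homCx (Rep.res r N) K).coInd r 𝓤) ((swapFromCx r 𝓤 hN K).onT1 z))
      = (homCxPost (Rep.res r N) (evCx r 𝓤 K)).onT1 (resHomT1 r N (K.coInd r 𝓤) z) := by
    refine Prod.ext (funext fun d => LinearMap.ext fun n => ?_) (LinearMap.ext fun n => ?_)
    · show K.coIndFun0 r 𝓤 ((z.1 (r d) : N →ₗ[k] (K.coInd r 𝓤).K0) (N.ρ 1⁻¹ n)) 1 = _
      rw [inv_one, map_one, Module.End.one_apply]
      rfl
    · show K.coIndFun1 r 𝓤 ((z.2 : N →ₗ[k] (K.coInd r 𝓤).K1) (N.ρ 1⁻¹ n)) 1 = _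
      rw [inv_one, map_one, Module.End.one_apply]
      rfl
  rw [← hev] at h
  have hB := ecR_shapiro1inj_coInd r 𝓤 (homCx (Rep.res r N) K) _ hZ h
  have hB' := CxHom.onT1_mem_BB1 (swapToCx r 𝓤 hN K) hB
  have e : (swapToCx r 𝓤 hN K).onT1 ((swapFromCx r 𝓤 hN K).onT1 z) = z := by
    refine Prod.ext (funext fun g => ?_) ?_
    · exact swapTo_swapFrom r 𝓤 hN K.K0 (z.1 g)
    · exact swapTo_swapFrom r 𝓤 hN K.K1 z.2
  rwa [e] at hB'

end Hom

/-! ### Products -/

section Pi

variable {k G : Type} [CommRing k] [Group G] {ι : Type} (N : Rep.{0} k G) (K : ι → Cx k G)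

/-- The projections are jointly injective on total 1-cochains of `Hom(N, ∏ K)`. -/
lemma ecR_pi_T1_ext {w w' : T1 (homCx N (Cx.pi K))}
    (h : ∀ i, (homCxPost N (Cx.piProj K i)).onT1 w = (homCxPost N (Cx.piProj K i)).onT1 w') :
    w = w' := by
  refine Prod.ext (funext fun g => LinearMap.ext fun n => funext fun i => ?_)
    (LinearMap.ext fun n => funext fun i => ?_)
  · have := congrArg (fun f : N →ₗ[k] (K i).K0 => f n) (congrFun (congrArg Prod.fst (h i)) g)
    exact this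
  · have := congrArg (fun f : N →ₗ[k] (K i).K1 => f n) (congrArg Prod.snd (h i))
    exact this

/-- Membership in `BB¹` of `Hom(N, ∏ K)` is tested on the factors. -/
lemma ecR_pi_mem_BB1 (z : T1 (homCx N (Cx.pi K)))
    (h : ∀ i, (homCxPost N (Cx.piProj K i)).onT1 z ∈ BB1 (homCx N (K i))) :
    z ∈ BB1 (homCx N (Cx.pi K)) := by
  have h' := fun i => (mem_BB1_iff _ _).1 (h i)
  choose x hx using h'
  refine (mem_BB1_iff _ _).2
    ⟨(LinearMap.pi fun i => (x i : N →ₗ[k] (K i).K0) : N →ₗ[k] (∀ i, (K i).K0)), ?_⟩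
  refine ecR_pi_T1_ext N K fun i => ?_
  exact ((CxHom.D0_f0 (homCxPost N (Cx.piProj K i)) _).symm).trans (hx i)

end Pi

section CoindPi

variable {k G : Type} [Field k] [Group G] {ι : Type} {D : ι → Type} [∀ i, Group (D i)]
  (r : ∀ i, D i →* G) (𝓤 : Levels G) (K : ∀ i, Cx k (D i)) (N : Rep.{0} k G)

/-- **Shapiro in degree 1 for `∏ coInd K`** (injectivity, on cochains). -/
theorem ecR_shapiro1inj_pi [Finite ι] (hN : IsSmooth 𝓤 N) [hfin : Module.Finite k N]
    (z : T1 (homCx N (coindPiCx r 𝓤 K))) (hz : z ∈ ZZ1 𝓤 (homCx N (coindPiCx r 𝓤 K)))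
    (h : ∀ i, (homCxPost (Rep.res (r i) N) (evPi r 𝓤 K i)).onT1
        (resHomT1 (r i) N (coindPiCx r 𝓤 K) z) ∈ BB1 (homCx (Rep.res (r i) N) (K i))) :
    z ∈ BB1 (homCx N (coindPiCx r 𝓤 K)) := by
  refine ecR_pi_mem_BB1 N (fun i => (K i).coInd (r i) 𝓤) z fun i => ?_
  refine ecR_shapiro1inj_hom (r i) 𝓤 (K i) N hN _
    (CxHom.onT1_mem_ZZ1 (homCxPost N (Cx.piProj (fun i => (K i).coInd (r i) 𝓤) i)) 𝓤 hz) ?_
  exact h i

end CoindPi

/-! ### The complex `KJ` -/

section KJ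

variable {p : ℕ} [Fact p.Prime] {S : Finset Nat.Primes} (loc : ∀ q : ↥S, LocalDatum p S q.1)

/-- **Shapiro in degree 1 for `KJ`, injectivity**: a class of `Hom(N, KJ)` which is locally
trivial is trivial. -/
theorem ecR_coind_shapiro1inj (N : Rep.{0} (ZMod p) GQ) (hN : IsSmooth (levelsS S) N)
    (hfin : Module.Finite (ZMod p) N)
    (z : ↥(ZZ1 (levelsS S) (homCx N (coindKJ loc))))
    (h : ∀ q : ↥S, (homCxPost (Rep.res (primeLocalToGlobal q.1) N) (coindEv loc q)).onT1
            (resHomT1 (primeLocalToGlobal q.1) N (coindKJ loc) z.1)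
          ∈ BB1 (homCx (Rep.res (primeLocalToGlobal q.1) N) (loc q).K)) :
    (z : T1 (homCx N (coindKJ loc))) ∈ BB1 (homCx N (coindKJ loc)) :=
  ecR_shapiro1inj_pi (fun q : ↥S => primeLocalToGlobal q.1) (levelsS S)
    (fun q => (loc q).K) N hN z.1 z.2 h

end KJ

end Fermat.Agent.F4
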