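/-
S56, wall W2-EC, rich datum (helper1), part R2: Shapiro's lemma in degree 0 with coefficients,
`Hom_G(N, coInd K) ≃ Hom_D(N|_D, K)` on `HH⁰` (`Φ ↦ (n ↦ Φ n 1)`), for finite products, and for
`KJ = coindKJ loc`:  `HH⁰(Hom(N, KJ)) ≃ ∏_q HH⁰(Hom(N|_q, K_q))`.
-/
import Fermat.Agent.F4.Coind.Datum
import Fermat.Agent.S56.W2.EC.Sh.Hom
import Fermat.Agent.S56.W2.EC.Rich.Sh1Inj

set_option autoImplicit false

open CategoryTheory groupCohomology ExtCitation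

namespace Fermat.Agent.F4

/-! ### One coinduction -/

section Coind

variable {k D G : Type} [CommRing k] [Group D] [Group G] (r : D →* G) (𝓤 : Levels G) (K : Cx k D)
  (N : Rep.{0} k G)

/-- `Φ ↦ (n ↦ Φ n 1)`. -/
def ecR_ev0 : (N →ₗ[k] ↥(coIndSub r 𝓤 K.K0)) →ₗ[k] (N →ₗ[k] K.K0) where
  toFun Φ :=
    { toFun := fun n => (Φ n : G → K.K0) 1
      map_add' := fun n n' => by rw [map_add]; rfl
      map_smul' := fun c n => by rw [map_smul]; rfl }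
  map_add' _ _ := rfl
  map_smul' _ _ := rfl

@[simp] lemma ecR_ev0_apply (Φ : N →ₗ[k] ↥(coIndSub r 𝓤 K.K0)) (n : N) :
    ecR_ev0 r 𝓤 K N Φ n = (Φ n : G → K.K0) 1 := rfl

variable {N}

/-- The function `x ↦ f (x • n)` is a smooth coinduced function if `f` is `D`-equivariant. -/
lemma ecR_coext_mem (hN : IsSmooth 𝓤 N) (f : N →ₗ[k] K.K0)
    (hf : ∀ (d : D) (n : N), f (N.ρ (r d) n) = K.K0.ρ d (f n)) (n : N) :
    (fun x : G => f (N.ρ x n)) ∈ coIndSub r 𝓤 K.K0 := by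
  refine ⟨fun d x => ?_, ?_⟩
  · show f (N.ρ (r d * x) n) = K.K0.ρ d (f (N.ρ x n))
    rw [map_mul, Module.End.mul_apply, hf]
  · obtain ⟨U, hU, h⟩ := hN n
    refine ⟨U, hU, fun x s hs => ?_⟩
    show f (N.ρ (x * s) n) = f (N.ρ x n)
    rw [map_mul, Module.End.mul_apply, h s hs]

/-- `f ↦ (n ↦ (x ↦ f (x • n)))`. -/
def ecR_coext (hN : IsSmooth 𝓤 N) (f : N →ₗ[k] K.K0)
    (hf : ∀ (d : D) (n : N), f (N.ρ (r d) n) = K.K0.ρ d (f n)) :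
    N →ₗ[k] ↥(coIndSub r 𝓤 K.K0) where
  toFun n := ⟨_, ecR_coext_mem r 𝓤 K hN f hf n⟩
  map_add' n n' := Subtype.ext (funext fun x => by
    show f (N.ρ x (n + n')) = f (N.ρ x n) + f (N.ρ x n')
    rw [map_add, map_add])
  map_smul' c n := Subtype.ext (funext fun x => by
    show f (N.ρ x (c • n)) = c • f (N.ρ x n)
    rw [map_smul, map_smul])

@[simp] lemma ecR_coext_apply (hN : IsSmooth 𝓤 N) (f : N →ₗ[k] K.K0)
    (hf : ∀ (d : D) (n : N), f (N.ρ (r d) n) = K.K0.ρ d (f n)) (n : N) (x : G) :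
    ((ecR_coext r 𝓤 K hN f hf n : ↥(coIndSub r 𝓤 K.K0)) : G → K.K0) x = f (N.ρ x n) := rfl

variable (N)

lemma ecR_ev0_mem_HH0 (Φ : (homCx N (K.coInd r 𝓤)).K0) (hΦ : Φ ∈ HH0 (homCx N (K.coInd r 𝓤))) :
    ecShToHom (Rep.res r N) K (ecR_ev0 r 𝓤 K N (ecShOfHom N (K.coInd r 𝓤) Φ))
      ∈ HH0 (homCx (Rep.res r N) K) := by
  obtain ⟨h1, h2⟩ := (ecSh_mem_HH0_iff N (K.coInd r 𝓤) Φ).1 hΦ
  refine (ecSh_mem_HH0_iff (Rep.res r N) K _).2 ⟨fun d n => ?_, fun n => ?_⟩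
  · show K.coIndFun0 r 𝓤 (ecShOfHom N (K.coInd r 𝓤) Φ (N.ρ (r d) n)) 1
      = K.K0.ρ d (K.coIndFun0 r 𝓤 (ecShOfHom N (K.coInd r 𝓤) Φ n) 1)
    rw [h1 (r d) n]
    show K.coIndFun0 r 𝓤 (ecShOfHom N (K.coInd r 𝓤) Φ n) (1 * r d) = _
    rw [one_mul, ← mul_one (r d)]
    exact coIndSub_equivariant _ d 1
  · have := congrFun (congrArg Subtype.val (h2 n)) 1
    exact this

variable {N}

lemma ecR_coext_mem_HH0 (hN : IsSmooth 𝓤 N) (f : (homCx (Rep.res r N) K).K0)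
    (hf : f ∈ HH0 (homCx (Rep.res r N) K)) :
    ecShToHom N (K.coInd r 𝓤) (ecR_coext r 𝓤 K hN (ecShOfHom (Rep.res r N) K f)
        ((ecSh_mem_HH0_iff (Rep.res r N) K f).1 hf).1)
      ∈ HH0 (homCx N (K.coInd r 𝓤)) := by
  obtain ⟨h1, h2⟩ := (ecSh_mem_HH0_iff (Rep.res r N) K f).1 hf
  refine (ecSh_mem_HH0_iff N (K.coInd r 𝓤) _).2 ⟨fun g n => ?_, fun n => ?_⟩
  · refine Subtype.ext (funext fun x => ?_)
    show ecShOfHom (Rep.res r N) K f (N.ρ x (N.ρ g n))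
      = ecShOfHom (Rep.res r N) K f (N.ρ (x * g) n)
    rw [map_mul, Module.End.mul_apply]
  · refine Subtype.ext (funext fun x => ?_)
    exact h2 (N.ρ x n)

/-- **Shapiro in degree 0 with coefficients**: `Hom_G(N, coInd K) ≃ Hom_D(N|_D, K)`. -/
def ecR_hh0Equiv (hN : IsSmooth 𝓤 N) :
    ↥(HH0 (homCx N (K.coInd r 𝓤))) ≃ₗ[k] ↥(HH0 (homCx (Rep.res r N) K)) where
  toFun Φ := ⟨_, ecR_ev0_mem_HH0 r 𝓤 K N Φ.1 Φ.2⟩
  map_add' _ _ := rfl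
  map_smul' _ _ := rfl
  invFun f := ⟨_, ecR_coext_mem_HH0 r 𝓤 K hN f.1 f.2⟩
  left_inv Φ := by
    obtain ⟨h1, -⟩ := (ecSh_mem_HH0_iff N (K.coInd r 𝓤) Φ.1).1 Φ.2
    refine Subtype.ext (LinearMap.ext fun n => Subtype.ext (funext fun x => ?_))
    show K.coIndFun0 r 𝓤 (ecShOfHom N (K.coInd r 𝓤) Φ.1 (N.ρ x n)) 1
      = K.coIndFun0 r 𝓤 (ecShOfHom N (K.coInd r 𝓤) Φ.1 n) x
    rw [h1 x n]
    show K.coIndFun0 r 𝓤 (ecShOfHom N (K.coInd r 𝓤) Φ.1 n) (1 * x) = _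
    rw [one_mul]
  right_inv f := by
    refine Subtype.ext (LinearMap.ext fun n => ?_)
    show ecShOfHom (Rep.res r N) K f.1 (N.ρ 1 n) = ecShOfHom (Rep.res r N) K f.1 n
    rw [map_one, Module.End.one_apply]

lemma ecR_hh0Equiv_apply (hN : IsSmooth 𝓤 N) (Φ : ↥(HH0 (homCx N (K.coInd r 𝓤)))) (n : N) :
    ecShOfHom (Rep.res r N) K (ecR_hh0Equiv r 𝓤 K hN Φ).1 n
      = K.coIndFun0 r 𝓤 (ecShOfHom N (K.coInd r 𝓤) Φ.1 n) 1 := rfl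

end Coind

/-! ### Products -/

section Pi

variable {k G : Type} [CommRing k] [Group G] {ι : Type} (N : Rep.{0} k G) (K : ι → Cx k G)

lemma ecR_pi_mem_HH0 (f : (i : ι) → ↥(HH0 (homCx N (K i)))) :
    (LinearMap.pi (fun i => ((f i).1 : N →ₗ[k] (K i).K0)) : N →ₗ[k] (∀ i, (K i).K0))
      ∈ HH0 (homCx N (Cx.pi K)) := by
  show D0 (homCx N (Cx.pi K)) _ = 0
  refine ecR_pi_T1_ext N K fun i => ?_
  rw [map_zero]
  refine ((CxHom.D0_f0 (homCxPost N (Cx.piProj K i)) _).symm).trans ?_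
  exact (f i).2

/-- `HH⁰(Hom(N, ∏ K)) ≃ ∏ HH⁰(Hom(N, K i))`. -/
def ecR_hh0Pi : ↥(HH0 (homCx N (Cx.pi K))) ≃ₗ[k] ((i : ι) → ↥(HH0 (homCx N (K i)))) where
  toFun Φ i := (homCxPost N (Cx.piProj K i)).hh0 Φ
  map_add' Φ Ψ := funext fun _ => map_add _ Φ Ψ
  map_smul' c Φ := funext fun _ => map_smul _ c Φ
  invFun f := ⟨_, ecR_pi_mem_HH0 N K f⟩
  left_inv _ := Subtype.ext (LinearMap.ext fun _ => funext fun _ => rfl)
  right_inv _ := funext fun _ => Subtype.ext (LinearMap.ext fun _ => rfl)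

lemma ecR_hh0Pi_apply (Φ : ↥(HH0 (homCx N (Cx.pi K)))) (i : ι) :
    ecR_hh0Pi N K Φ i = (homCxPost N (Cx.piProj K i)).hh0 Φ := rfl

end Pi

/-! ### The complex `KJ` -/

section KJ

variable {p : ℕ} [Fact p.Prime] {S : Finset Nat.Primes} (loc : ∀ q : ↥S, LocalDatum p S q.1)
  {N : Rep.{0} (ZMod p) GQ}

/-- **Shapiro in degree 0 for `KJ`**: `Hom_G(N, KJ) ≃ ∏_q Hom_{D_q}(N, K_q)`. -/
noncomputable def ecR_hh0KJ (hN : IsSmooth (levelsS S) N) :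
    ↥(HH0 (homCx N (coindKJ loc))) ≃ₗ[ZMod p]
      ((q : ↥S) → ↥(HH0 (homCx (Rep.res (primeLocalToGlobal q.1) N) (loc q).K))) :=
  (ecR_hh0Pi N (fun q : ↥S => (loc q).K.coInd (primeLocalToGlobal q.1) (levelsS S))).trans
    (LinearEquiv.piCongrRight fun q : ↥S =>
      ecR_hh0Equiv (primeLocalToGlobal q.1) (levelsS S) (loc q).K hN)

/-- The components of `ecR_hh0KJ` are `Φ ↦ ev_q ∘ Φ`. -/
lemma ecR_hh0KJ_apply (hN : IsSmooth (levelsS S) N) (Φ : ↥(HH0 (homCx N (coindKJ loc))))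
    (q : ↥S) (n : N) :
    ecShOfHom (Rep.res (primeLocalToGlobal q.1) N) (loc q).K (ecR_hh0KJ loc hN Φ q).1 n
      = (coindEv loc q).f0 (ecShOfHom N (coindKJ loc) Φ.1 n) := rfl

/-- `dim Hom_G(N, KJ) = ∑_q dim Hom_{D_q}(N, K_q)`. -/
lemma ecR_finrank_hh0KJ (hN : IsSmooth (levelsS S) N)
    (hfin : ∀ q : ↥S, Module.Finite (ZMod p)
      ↥(HH0 (homCx (Rep.res (primeLocalToGlobal q.1) N) (loc q).K))) :
    Module.finrank (ZMod p) ↥(HH0 (homCx N (coindKJ loc)))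
      = ∑ q : ↥S, Module.finrank (ZMod p)
          ↥(HH0 (homCx (Rep.res (primeLocalToGlobal q.1) N) (loc q).K)) := by
  rw [(ecR_hh0KJ loc hN).finrank_eq]
  exact Module.finrank_pi_fintype (ZMod p)

/-- `Hom_G(N, KJ)` is finite if the local `Hom_{D_q}(N, K_q)` are. -/
lemma ecR_finite_hh0KJ (hN : IsSmooth (levelsS S) N)
    (hfin : ∀ q : ↥S, Module.Finite (ZMod p)
      ↥(HH0 (homCx (Rep.res (primeLocalToGlobal q.1) N) (loc q).K))) :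
    Module.Finite (ZMod p) ↥(HH0 (homCx N (coindKJ loc))) :=
  Module.Finite.equiv (ecR_hh0KJ loc hN).symm

end KJ

end Fermat.Agent.F4
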