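/-
S56, wall W2-EC, rich datum (helper1), part CY-T/local: for a morphism `ε : B[0] → K` which is
injective in degree `0` with image `ker d` (for the local data: `B = μ_p`, `K = K_q`, hypothesis
R3), post-composition with `ε` is bijective on `HH⁰(Hom(N, -))` and injective on
`HH¹(Hom(N, -))` (on cochains).
-/
import Fermat.Agent.F4.HyperLES
import Fermat.Agent.F4.Pairing
import Fermat.Agent.S56.W2.EC.Sh.Hom

set_option autoImplicit false

open CategoryTheory groupCohomology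

namespace Fermat.Agent.F4

section LocInj

variable {k G : Type} [Field k] [Group G] {B : Rep.{0} k G} {K : Cx k G}
  (ε : CxHom (Cx.deg0 B) K) (hinj : Function.Injective ε.f0)
  (hker : ∀ t : K.K0, K.d t = 0 → ∃ m : B, ε.f0 m = t) (N : Rep.{0} k G)

/-- `B ≃ ker d` through `ε`. -/
noncomputable def ecR_epsEquiv : B ≃ₗ[k] ↥(LinearMap.ker K.d) :=
  LinearEquiv.ofBijective
    (ε.f0.codRestrict (LinearMap.ker K.d) fun m => by
      rw [LinearMap.mem_ker]
      have h := ε.commd m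
      have h0 : (Cx.deg0 B).d m = 0 := rfl
      rw [← h, h0, map_zero])
    ⟨fun a b hab => hinj (congrArg Subtype.val hab), fun t => by
      obtain ⟨m, hm⟩ := hker t.1 t.2
      exact ⟨m, Subtype.ext hm⟩⟩

lemma ecR_epsEquiv_coe (m : B) : ((ecR_epsEquiv ε hinj hker m : ↥(LinearMap.ker K.d)) : K.K0)
    = ε.f0 m := rfl

lemma ecR_eps_symm (t : ↥(LinearMap.ker K.d)) :
    ε.f0 ((ecR_epsEquiv ε hinj hker).symm t) = t.1 := by
  rw [← ecR_epsEquiv_coe ε hinj hker, LinearEquiv.apply_symm_apply]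

/-- A linear map into `ker d` lifts through `ε`. -/
noncomputable def ecR_lift (x : N →ₗ[k] K.K0) (hx : ∀ n, K.d (x n) = 0) : N →ₗ[k] B :=
  (ecR_epsEquiv ε hinj hker).symm.toLinearMap ∘ₗ
    x.codRestrict (LinearMap.ker K.d) fun n => LinearMap.mem_ker.2 (hx n)

lemma ecR_eps_lift (x : N →ₗ[k] K.K0) (hx : ∀ n, K.d (x n) = 0) (n : N) :
    ε.f0 (ecR_lift ε hinj hker N x hx n) = x n :=
  ecR_eps_symm ε hinj hker _

include hinj hker in
/-- **Local injectivity in degree 1** (on cochains). -/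
theorem ecR_loc_inj1 (z : T1 (homCx N (Cx.deg0 B)))
    (h : (homCxPost N ε).onT1 z ∈ BB1 (homCx N K)) : z ∈ BB1 (homCx N (Cx.deg0 B)) := by
  obtain ⟨x, hx⟩ := (mem_BB1_iff _ _).1 h
  have hx1 : ∀ (g : G) (n : N), K.K0.ρ g (ecShOfHom N K x (N.ρ g⁻¹ n)) - ecShOfHom N K x n
      = ε.f0 ((z.1 g : N →ₗ[k] B) n) := by
    intro g n
    have := congrArg (fun u : N →ₗ[k] K.K0 => u n) (congrFun (congrArg Prod.fst hx) g)
    exact this
  have hx2 : ∀ n : N, K.d (ecShOfHom N K x n) = 0 := by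
    intro n
    have h2 := congrArg (fun u : N →ₗ[k] K.K1 => u n) (congrArg Prod.snd hx)
    have h3 : K.d (ecShOfHom N K x n) = ε.f1 ((z.2 : N →ₗ[k] (Cx.deg0 B).K1) n) := h2
    rw [h3, show (z.2 : N →ₗ[k] (Cx.deg0 B).K1) n = 0 from
      Subsingleton.elim (α := PUnit.{1}) _ _, map_zero]
  refine (mem_BB1_iff _ _).2 ⟨ecShToHom N (Cx.deg0 B) (ecR_lift ε hinj hker N _ hx2), ?_⟩
  refine Prod.ext (funext fun g => LinearMap.ext fun n => ?_) (LinearMap.ext fun n => ?_)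
  · apply hinj
    refine Eq.trans ?_ (hx1 g n)
    have e1 := ε.comm0 g (ecR_lift ε hinj hker N _ hx2 (N.ρ g⁻¹ n))
    have e2 := ecR_eps_lift ε hinj hker N _ hx2 n
    have e3 := ecR_eps_lift ε hinj hker N _ hx2 (N.ρ g⁻¹ n)
    exact (map_sub ε.f0 _ _).trans
      (congrArg₂ (· - ·) (e1.trans (congrArg (K.K0.ρ g) e3)) e2)
  · exact Subsingleton.elim (α := PUnit.{1}) _ _

include hinj in
lemma ecR_loc_hh0_injective : Function.Injective (homCxPost N ε).hh0 := by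
  intro a b hab
  refine Subtype.ext (LinearMap.ext fun n => hinj ?_)
  exact congrArg (fun u : N →ₗ[k] K.K0 => u n) (congrArg Subtype.val hab)

include hinj hker in
lemma ecR_loc_hh0_surjective : Function.Surjective (homCxPost N ε).hh0 := by
  intro x
  obtain ⟨h1, h2⟩ := (ecSh_mem_HH0_iff N K x.1).1 x.2
  have hy : ecShToHom N (Cx.deg0 B) (ecR_lift ε hinj hker N _ h2) ∈ HH0 (homCx N (Cx.deg0 B)) := by
    refine (ecSh_mem_HH0_iff N (Cx.deg0 B) _).2 ⟨fun g n => hinj ?_, fun n => rfl⟩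
    have e1 := ε.comm0 g (ecR_lift ε hinj hker N _ h2 n)
    have e2 := ecR_eps_lift ε hinj hker N _ h2 n
    have e3 := ecR_eps_lift ε hinj hker N _ h2 (N.ρ g n)
    exact e3.trans ((h1 g n).trans ((congrArg (K.K0.ρ g) e2).symm.trans e1.symm))
  refine ⟨⟨_, hy⟩, Subtype.ext (LinearMap.ext fun n => ?_)⟩
  exact ecR_eps_lift ε hinj hker N _ h2 n

/-- **Local `HH⁰`**: `Hom_G(N, B) ≃ Hom_G(N, K)` through `ε`. -/
noncomputable def ecR_loc_hh0Equiv :
    ↥(HH0 (homCx N (Cx.deg0 B))) ≃ₗ[k] ↥(HH0 (homCx N K)) :=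
  LinearEquiv.ofBijective (homCxPost N ε).hh0
    ⟨ecR_loc_hh0_injective ε hinj N, ecR_loc_hh0_surjective ε hinj hker N⟩

end LocInj

end Fermat.Agent.F4
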