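/-
S56, wall W2-EC, rich datum (helper1), part CY-T (= P3 of helper56's design, count form):
for the rich datum `Pk`, finite smooth `N` and `θ : A ≃ Hom(N, μ_p)`,

    `dim Hom_G(N, K_C) + h⁰(G, A) = ∑_{v ∈ S} h⁰(G_v, A) + dim Ш¹_S(A)`,

from the second-variable sequence of `μ_p → KJ → KC` in degrees `0, 1`, Shapiro for `KJ` in degree
`0` (`ecR_hh0KJ`) and in degree `1` (injectivity, `ecR_coind_shapiro1inj`) and the local input
R3 (`ker d_q = ε_q(μ_p)`, hypothesis `hker`).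
-/
import Fermat.Agent.S56.W2.EC.Pack
import Fermat.Agent.S56.W2.EC.LowerAbs
import Fermat.Agent.S56.W2.EC.Rich.Sh0
import Fermat.Agent.S56.W2.EC.Rich.LocInj
import Fermat.Agent.S56.W2.R.Pair

set_option autoImplicit false

open CategoryTheory groupCohomology ExtCitation Module

namespace Fermat.Agent.S56.EC

open Fermat.Agent.F4 Fermat.Agent.S56

/-! ### Coboundaries through `θ` -/

section Theta

variable {k G : Type} [Field k] [Group G] {M N B : Rep.{0} k G} (θ : M ≃ₗ[k] (N →ₗ[k] B))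
  (hθ : ∀ (g : G) (m : M) (n : N), θ (M.ρ g m) n = B.ρ g (θ m (N.ρ g⁻¹ n)))

include hθ in
/-- Converse of `w2_toHom1_mem_BB1`. -/
lemma ecR_mem_B1_of_toHom1 {a : G → M} (ha : ptToHom1 (A := B) θ a ∈ BB1 (homCx N (Cx.deg0 B))) :
    a ∈ B1 M := by
  obtain ⟨x, hx⟩ := (mem_BB1_iff _ _).1 ha
  refine (mem_B1_iff M a).2 ⟨ptθs θ x, funext fun g => ?_⟩
  apply ptθ_injective (A := B) θ
  have h1 : (homCx N (Cx.deg0 B)).K0.ρ g x - x = ptθ θ (a g) := congrFun (congrArg Prod.fst hx) g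
  rw [δ0_apply, map_sub, ptθ_equivariant θ hθ, ptθ_ptθs]
  exact h1

end Theta

/-! ### The count -/

section Count

variable {p : ℕ} [Fact p.Prime] {S : Finset Nat.Primes} {hpS : pPrime p ∈ S}
  (Pk : ECPack p S hpS)
  (hker : ∀ (q : ↥S) (t : (Pk.loc q).K.K0), (Pk.loc q).K.d t = 0 →
    ∃ m : Rep.res (primeLocalToGlobal q.1) (Fp1 p), (Pk.loc q).ε.f0 m = t)
  {A N : Rep.{0} (ZMod p) GQ} (θ : A ≃ₗ[ZMod p] (N →ₗ[ZMod p] Fp1 p))
  (hθ : ∀ (g : GQ) (m : A) (n : N), θ (A.ρ g m) n = (Fp1 p).ρ g (θ m (N.ρ g⁻¹ n)))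

/-- The local cocycle `y ∘ r_q`. -/
noncomputable def ecRLocY (q : Nat.Primes) (y : GQ → A) :
    primeLocalGaloisGroup q → Rep.res (primeLocalToGlobal q) A :=
  fun h => y (primeLocalToGlobal q h)

/-- Evaluation after restriction of `f_* (θ ∘ y, 0)` is `ε_* (θ_q ∘ y_q, 0)`. -/
lemma ecR_ev_res_eq (q : ↥S) (y : GQ → A) :
    (homCxPost (Rep.res (primeLocalToGlobal q.1) N) (coindEv Pk.loc q)).onT1
        (resHomT1 (primeLocalToGlobal q.1) N Pk.KJ ((homCxPost N Pk.datum.f).t1 (ptToHom1 θ y)))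
      = (homCxPost (Rep.res (primeLocalToGlobal q.1) N) (Pk.loc q).ε).onT1
          (ptToHom1 (ptaθloc q.1 θ) (ecRLocY q.1 y)) := by
  refine Prod.ext ?_ ?_
  · funext h
    refine LinearMap.ext fun n => ?_
    exact Pk.datum.ev_f q _
  · refine LinearMap.ext fun n => ?_
    have e1 : ∀ x : (Cx.deg0 (Fp1 p)).K1, Pk.datum.f.f1 x = 0 := fun x => by
      rw [show x = 0 from Subsingleton.elim (α := PUnit.{1}) _ _, map_zero]
    have e2 : ∀ x : (locMu p q.1).K1, (Pk.loc q).ε.f1 x = 0 := fun x => by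
      rw [show x = 0 from Subsingleton.elim (α := PUnit.{1}) _ _, map_zero]
    have h1 : (coindEv Pk.loc q).f1 (Pk.datum.f.f1
        (((ptToHom1 (A := Fp1 p) θ y).2 : N →ₗ[ZMod p] (Cx.deg0 (Fp1 p)).K1) n)) = 0 :=
      (congrArg (coindEv Pk.loc q).f1 (e1 _)).trans (map_zero (coindEv Pk.loc q).f1)
    have h2 : (Pk.loc q).ε.f1
        (((ptToHom1 (A := Rep.res (primeLocalToGlobal q.1) (Fp1 p)) (ptaθloc q.1 θ)
          (ecRLocY q.1 y)).2 : Rep.res (primeLocalToGlobal q.1) N →ₗ[ZMod p] (locMu p q.1).K1) n)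
        = 0 := e2 _
    exact h1.trans h2.symm

lemma ecR_sha_iff (y : ↥(Z1 (levelsS S) A)) :
    H1smπ (levelsS S) A y ∈ sha1sm S A ↔
      ∀ q : ↥S, ecRLocY q.1 y.1 ∈ B1 (Rep.res (primeLocalToGlobal q.1) A) := by
  have hloc : ∀ q : ↥S, locSm1 S A q.1 (H1smπ (levelsS S) A y) = 0 ↔
      ecRLocY q.1 y.1 ∈ B1 (Rep.res (primeLocalToGlobal q.1) A) := by
    intro q
    have := H1smπ_eq_zero_iff (locLevelsS S q.1) (Rep.res (primeLocalToGlobal q.1) A)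
      (Z1res (levelsS S) A (primeLocalToGlobal q.1) y)
    rw [mem_B1_iff]
    exact this
  rw [sha1sm, LinearMap.mem_ker]
  constructor
  · intro h q
    exact (hloc q).1 (congrFun h q)
  · intro h
    funext q
    exact (hloc q).2 (h q)

include hθ in
/-- **(E), input `hSh1`**: the classes of `Ш¹_S(A)` die in `HH¹(Hom(N, KJ))`. -/
theorem ecR_mem_BB1_of_sha (hN : IsSmooth (levelsS S) N) (hfinN : Module.Finite (ZMod p) N)
    (y : ↥(Z1 (levelsS S) A)) (hy : H1smπ (levelsS S) A y ∈ sha1sm S A) :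
    (homCxPost N Pk.datum.f).t1 (ptToHom1 θ y.1) ∈ BB1 (homCx N Pk.KJ) := by
  have hz : ptToHom1 (A := Fp1 p) θ y.1 ∈ ZZ1 (levelsS S) (homCx N (Cx.deg0 (Fp1 p))) :=
    (w2_toHom1_mem_ZZ1_iff (levelsS S) θ hθ y.1).2 y.2
  have hfz : (homCxPost N Pk.datum.f).t1 (ptToHom1 θ y.1) ∈ ZZ1 (levelsS S) (homCx N Pk.KJ) :=
    CxHom.t1_mem_ZZ1 _ _ hz
  have h := (ecR_sha_iff y).1 hy
  refine ecR_coind_shapiro1inj Pk.loc N hN hfinN ⟨_, hfz⟩ fun q => ?_
  show (homCxPost (Rep.res (primeLocalToGlobal q.1) N) (coindEv Pk.loc q)).onT1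
      (resHomT1 (primeLocalToGlobal q.1) N Pk.KJ ((homCxPost N Pk.datum.f).t1 (ptToHom1 θ y.1)))
    ∈ _
  rw [ecR_ev_res_eq Pk θ q y.1]
  exact CxHom.onT1_mem_BB1 _
    (w2_toHom1_mem_BB1 (ptaθloc q.1 θ) (ptaθloc_equivariant θ hθ q.1) (h q))

include hθ hker in
/-- Conversely (with R3): a class killed by `f_*` is locally trivial. -/
theorem ecR_sha_of_mem_BB1 (y : ↥(Z1 (levelsS S) A))
    (h : (homCxPost N Pk.datum.f).t1 (ptToHom1 θ y.1) ∈ BB1 (homCx N Pk.KJ)) :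
    H1smπ (levelsS S) A y ∈ sha1sm S A := by
  refine (ecR_sha_iff y).2 fun q => ?_
  have h1 := pta_resHomT1_mem_BB1 (primeLocalToGlobal q.1) N Pk.KJ h
  have h2 := CxHom.onT1_mem_BB1
    (homCxPost (Rep.res (primeLocalToGlobal q.1) N) (coindEv Pk.loc q)) h1
  rw [ecR_ev_res_eq Pk θ q y.1] at h2
  have h3 := ecR_loc_inj1 (Pk.loc q).ε (Pk.loc q).ε_inj (hker q)
    (Rep.res (primeLocalToGlobal q.1) N) _ h2
  exact ecR_mem_B1_of_toHom1 (ptaθloc q.1 θ) (ptaθloc_equivariant θ hθ q.1) h3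

/-! ### Degree `0` -/

include hθ hker in
/-- `Hom_{D_q}(N, K_q)` is finite. -/
lemma ecR_finite_loc_hh0 (hfinA : Module.Finite (ZMod p) A) (q : ↥S) :
    Module.Finite (ZMod p) ↥(HH0 (homCx (Rep.res (primeLocalToGlobal q.1) N) (Pk.loc q).K)) := by
  have hA' : Module.Finite (ZMod p) (Rep.res (primeLocalToGlobal q.1) A) := hfinA
  have h1 : Module.Finite (ZMod p)
      ↥(HH0 (homCx (Rep.res (primeLocalToGlobal q.1) N) (locMu p q.1))) :=
    ecl_finite_HH0 (ptaθloc q.1 θ) (ptaθloc_equivariant θ hθ q.1)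
  exact Module.Finite.equiv (ecR_loc_hh0Equiv (Pk.loc q).ε (Pk.loc q).ε_inj (hker q)
    (Rep.res (primeLocalToGlobal q.1) N))

include hθ hker in
/-- `dim Hom_{D_q}(N, K_q) = h⁰(G_q, A)`. -/
lemma ecR_finrank_loc_hh0 (q : ↥S) :
    finrank (ZMod p) ↥(HH0 (homCx (Rep.res (primeLocalToGlobal q.1) N) (Pk.loc q).K))
      = finrank (ZMod p) ↥(H0loc A q.1) := by
  rw [← (ecR_loc_hh0Equiv (Pk.loc q).ε (Pk.loc q).ε_inj (hker q)
    (Rep.res (primeLocalToGlobal q.1) N)).finrank_eq,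
    ecl_finrank_HH0 (ptaθloc q.1 θ) (ptaθloc_equivariant θ hθ q.1)]
  rfl

include hθ hker in
/-- `Hom_G(N, K_J)` is finite. -/
theorem ecR_finite_HH0_KJ (hfinA : Module.Finite (ZMod p) A) (hN : IsSmooth (levelsS S) N) :
    Module.Finite (ZMod p) ↥(HH0 (homCx N Pk.KJ)) :=
  ecR_finite_hh0KJ Pk.loc hN fun q => ecR_finite_loc_hh0 Pk hker θ hθ hfinA q

include hθ hker in
/-- `dim Hom_G(N, K_J) = ∑_{v ∈ S} h⁰(G_v, A)`. -/
theorem ecR_finrank_HH0_KJ (hfinA : Module.Finite (ZMod p) A) (hN : IsSmooth (levelsS S) N) :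
    finrank (ZMod p) ↥(HH0 (homCx N Pk.KJ)) = ∑ v ∈ S, finrank (ZMod p) ↥(H0loc A v) := by
  rw [ecR_finrank_hh0KJ Pk.loc hN fun q => ecR_finite_loc_hh0 Pk hker θ hθ hfinA q,
    Finset.sum_congr rfl fun q _ => ecR_finrank_loc_hh0 Pk hker θ hθ q]
  exact Finset.sum_coe_sort S fun v => finrank (ZMod p) ↥(H0loc A v)

include hθ hker in
/-- **(F)**: `Hom_G(N, K_C)` is finite. -/
theorem ecR_finite_HH0_KC (hfinA : Module.Finite (ZMod p) A) (hA : IsSmooth (levelsS S) A)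
    (hN : IsSmooth (levelsS S) N) (hfinN : Module.Finite (ZMod p) N) :
    Module.Finite (ZMod p) ↥(HH0 (homCx N Pk.KC)) := by
  have h1 : Module.Finite (ZMod p) ↥(HH0 (homCx N Pk.datum.KJ)) :=
    ecR_finite_HH0_KJ Pk hker θ hθ hfinA hN
  exact ecl_finite_HH0_KC Pk.datum N hN hfinN A hA θ hθ

include hθ hker in
/-- **CY-T, count form**:
`dim Hom_G(N, K_C) + h⁰(G, A) = ∑_{v ∈ S} h⁰(G_v, A) + dim Ш¹_S(A)`. -/
theorem ecR_count_KC (hfinA : Module.Finite (ZMod p) A) (hA : IsSmooth (levelsS S) A)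
    (hN : IsSmooth (levelsS S) N) (hfinN : Module.Finite (ZMod p) N) :
    finrank (ZMod p) ↥(HH0 (homCx N Pk.KC)) + finrank (ZMod p) ↥(H0glob A)
      = (∑ v ∈ S, finrank (ZMod p) ↥(H0loc A v)) + finrank (ZMod p) ↥(sha1sm S A) := by
  have i1 : Module.Finite (ZMod p) ↥(HH0 (homCx N Pk.datum.KJ)) :=
    ecR_finite_HH0_KJ Pk hker θ hθ hfinA hN
  have i2 : Module.Finite (ZMod p) ↥(HH0 (homCx N Pk.datum.KC)) :=
    ecR_finite_HH0_KC Pk hker θ hθ hfinA hA hN hfinN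
  have i3 : Module.Finite (ZMod p) ↥(HH0 (homCx N (Cx.deg0 (Fp1 p)))) := ecl_finite_HH0 θ hθ
  have i4 : Module.Finite (ZMod p) (H1sm (levelsS S) A) :=
    finite_H1sm_primeTo (levelsS S) Pk.datum.finH1 _ hA hfinA
  have c1 := ecadd_les_count (𝓤 := levelsS S) (pta_ses Pk.datum N)
    (pta_smoothJ Pk.datum N hN hfinN)
  rw [ecl_finrank_HH0 θ hθ, ← ecadd_H0glob_eq] at c1
  have c2 : finrank (ZMod p) ↥(HH0 (homCx N Pk.datum.KJ))
      = ∑ v ∈ S, finrank (ZMod p) ↥(H0loc A v) := ecR_finrank_HH0_KJ Pk hker θ hθ hfinA hN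
  -- the kernel of `f_*` on `HH¹` is `Ш¹`
  have c3 : LinearMap.ker ((homCxPost N Pk.datum.f).hh1 (levelsS S))
      = (sha1sm S A).map (eclHH1 (levelsS S) θ hθ).symm.toLinearMap := by
    ext x
    obtain ⟨c, rfl⟩ : ∃ c, (eclHH1 (levelsS S) θ hθ).symm c = x :=
      ⟨eclHH1 (levelsS S) θ hθ x, LinearEquiv.symm_apply_apply _ _⟩
    obtain ⟨y, rfl⟩ := H1smπ_surjective (levelsS S) A c
    have hm : (eclHH1 (levelsS S) θ hθ).symm (H1smπ (levelsS S) A y)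
        ∈ (sha1sm S A).map (eclHH1 (levelsS S) θ hθ).symm.toLinearMap
        ↔ H1smπ (levelsS S) A y ∈ sha1sm S A := by
      constructor
      · rintro ⟨c', hc', hcc⟩
        have := (eclHH1 (levelsS S) θ hθ).symm.injective hcc
        rw [← this]
        exact hc'
      · intro h
        exact ⟨_, h, rfl⟩
    rw [hm, LinearMap.mem_ker, eclHH1_symm_mk, CxHom.hh1_mk, HH1π_eq_zero_iff]
    have e : (((homCxPost N Pk.datum.f).zz1 (levelsS S)
        ((eclPhi θ hθ).zz1 (levelsS S) ((ecaddZ1 (levelsS S) A).symm y)) :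
          ↥(ZZ1 (levelsS S) (homCx N Pk.datum.KJ))) : T1 (homCx N Pk.datum.KJ))
        = (homCxPost N Pk.datum.f).t1 (ptToHom1 θ y.1) := by
      exact congrArg (homCxPost N Pk.datum.f).t1 (eclHH1_symm_mk_coe (levelsS S) θ hθ y)
    rw [e]
    exact ⟨ecR_sha_of_mem_BB1 Pk hker θ hθ y, ecR_mem_BB1_of_sha Pk θ hθ hN hfinN y⟩
  have c4 : finrank (ZMod p) ↥(LinearMap.ker ((homCxPost N Pk.datum.f).hh1 (levelsS S)))
      = finrank (ZMod p) ↥(sha1sm S A) := by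
    rw [c3]
    exact LinearEquiv.finrank_map_eq (eclHH1 (levelsS S) θ hθ).symm (sha1sm S A)
  rw [c2, c4] at c1
  have c5 : finrank (ZMod p) ↥(HH0 (homCx N Pk.KC))
      = finrank (ZMod p) ↥(HH0 (homCx N Pk.datum.KC)) := rfl
  omega

include hker in
/-- **(F)** from R3: `Hom_G(N, K_C)` is finite for every finite smooth `N`. -/
theorem ecR_finiteHom0 : FiniteHom0 S Pk.KC := by
  intro N hN hfin
  have hsm : IsSmooth (levelsS S) (homRep N (Fp1 p)) :=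
    (homCx_smooth (levelsS S) (Cx.deg0 (Fp1 p))
      (ecadd_deg0_smooth (levelsS S) (Fp1 p) (isSmooth_Fp1 S hpS)) N hN hfin).1
  have hf : Module.Finite (ZMod p) (homRep N (Fp1 p)) := by
    show Module.Finite (ZMod p) (N →ₗ[ZMod p] Fp1 p)
    infer_instance
  exact ecR_finite_HH0_KC Pk hker (A := homRep N (Fp1 p)) (LinearEquiv.refl (ZMod p) _)
    (fun g m n => rfl) hf hsm hN hfin

end Count

end Fermat.Agent.S56.EC
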